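/-
S18 / wave 4 (helper74): ABSTRACT INTERFACE of the route of report #1073.

`Setup K A F O x`: a function field `F/K` in one variable with a "Gauss" valuation ring `O`
(extending the valuation ring `A` of the constants) and a base function `x`, such that
* the residue degree of `O` over the Gauss valuation of `K(x)` is `[F : K(x)]` and the residue
  extension is separable  (packaged as an orthonormal `K(x)`-basis `θ` with unit discriminant),
* the branch points of `F/K(x)` at finite distance lie in a finite set `S ⊆ A` of pairwise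
  incongruent points (so: at most one branch point in every residue disc, `∞` included),
* every finite-dimensional `K`-subspace of `F` has an orthonormal basis (`F` is `K`-cartesian).

`AbsTConclusion` is the conclusion of the abstract Theorem T: a one-unit whose divisor is divisible
by `m` is an `m`-th power up to a constant.  (Definitions only; final.)
-/
import Mathlib
import Fermat.Prelude.Def_AlgebraicCurve_DivisorClassGroup

set_option autoImplicit false

open AlgebraicCurve IntermediateField

noncomputable section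

namespace Fermat.Agent.S18.H74

variable (K : Type*) [Field K] (A : ValuationSubring K) (F : Type*) [Field F] [Algebra K F]
  (O : ValuationSubring F) (x : F)

/-- The Gram determinant `det (Tr_{F/K(x)}(θ_i θ_j))`, an element of `K(x)`. -/
def gramDet {μ : ℕ} (θ : Fin μ → F) : K⟮x⟯ :=
  (Matrix.of fun i j : Fin μ => Algebra.trace K⟮x⟯ F (θ i * θ j)).det

/-- The abstract setup of the route (see the file header). -/
structure Setup : Prop where
  /-- `O ∩ K = A`. -/
  mem_iff : ∀ a : K, algebraMap K F a ∈ O ↔ a ∈ A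
  /-- `O ∩ K(x)` is the Gauss valuation ring: a polynomial in `x` with coefficients in `A`, one of
  them a unit, is a unit of `O`. -/
  gauss : ∀ p : Polynomial K, (∀ i, p.coeff i ∈ A) → (∃ i, p.coeff i ≠ 0 ∧ (p.coeff i)⁻¹ ∈ A) →
    Polynomial.aeval x p ∈ O ∧ (Polynomial.aeval x p)⁻¹ ∈ O
  /-- the value group of `O` is that of `A`. -/
  scale : ∀ f : F, f ≠ 0 → ∃ c : K, c ≠ 0 ∧ algebraMap K F c * f ∈ O ∧ (algebraMap K F c * f)⁻¹ ∈ O
  /-- `F/K(x)` is finite. -/
  finite : FiniteDimensional K⟮x⟯ F
  /-- an orthonormal basis of `F` over `(K(x), Gauss)` with unit discriminant: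
  residue degree `= [F : K(x)]` and separable residue extension.
  (`gramDet θ ≠ 0` is automatic in characteristic `0`, where the theory is used, because an
  orthonormal family of `[F : K(x)]` elements is a `K(x)`-basis of the separable `F/K(x)`.) -/
  basis : ∃ θ : Fin (Module.finrank K⟮x⟯ F) → F,
    (∀ r : Fin (Module.finrank K⟮x⟯ F) → K⟮x⟯,
      (∑ i, (r i : F) * θ i) ∈ O ↔ ∀ i, (r i : F) ∈ O) ∧
    ((gramDet K F x θ : K⟮x⟯) : F)⁻¹ ∈ O
  /-- finite branch points are pairwise incongruent elements of `A`. -/
  branch : ∃ S : Finset K, (∀ c ∈ S, c ∈ A) ∧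
    (∀ c ∈ S, ∀ c' ∈ S, c ≠ c' → (c - c')⁻¹ ∈ A) ∧
    ∀ (P : Place K F) (c : K), c ∉ S →
      0 < P.ord (x - algebraMap K F c) → P.ord (x - algebraMap K F c) = 1
  /-- the same for the base function `x⁻¹` (chart at infinity). -/
  branch_inv : ∃ S : Finset K, (∀ c ∈ S, c ∈ A) ∧
    (∀ c ∈ S, ∀ c' ∈ S, c ≠ c' → (c - c')⁻¹ ∈ A) ∧
    ∀ (P : Place K F) (c : K), c ∉ S →
      0 < P.ord (x⁻¹ - algebraMap K F c) → P.ord (x⁻¹ - algebraMap K F c) = 1
  /-- `F` is `K`-cartesian: finite-dimensional subspaces have orthonormal bases. -/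
  cartesian : ∀ V : Submodule K F, FiniteDimensional K V →
    ∃ b : Fin (Module.finrank K V) → F, (∀ i, b i ∈ V) ∧
      (∀ f ∈ V, ∃ c : Fin (Module.finrank K V) → K, f = ∑ i, c i • b i) ∧
      ∀ c : Fin (Module.finrank K V) → K, (∑ i, c i • b i) ∈ O ↔ ∀ i, c i ∈ A

/-- The conclusion of the abstract Theorem T for the exponent `m`. -/
def AbsTConclusion (m : ℕ) : Prop :=
  ∀ u : F, u - 1 ∈ O.nonunits → (∀ P : Place K F, (m : ℤ) ∣ P.ord u) →
    ∃ (c : K) (w : F), c ≠ 0 ∧ u = algebraMap K F c * w ^ m

end Fermat.Agent.S18.H74
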