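/-
S18 / wave 4 (helper74): top-level definitions (final): `Kb`, `FN`, `IsOneUnit`, `TheoremT`,
and the algebra structure `FN N → FN N'` for `F_N ≤ F_{N'}`.
-/
import Fermat.Statements.S18
import Fermat.Agent.S18.H74.Setup

set_option autoImplicit false

open AlgebraicCurve IntermediateField ModularCurve

noncomputable section

namespace Fermat.Agent.S18.H74

/-- `ℚ̄`. -/
abbrev Kb : Type := AlgebraicClosure ℚ

/-- The function field of `X₀(N)` over `ℚ̄`, as a type. -/
abbrev FN (N : ℕ) : Type := ↥(modularFunctionFieldBar N)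

/-- `u = Y₁ / Y₂` with `Y₁, Y₂ ∈ A((q))`, `Y₁ ∈ F`, equal nonzero reductions: "`u ≡ 1`". -/
def IsOneUnit (A : ValuationSubring Kb) (N : ℕ) (u : FN N) : Prop :=
  ∃ y₁ y₂ : LaurentSeries A,
    coeffMap (IsLocalRing.residue A) y₁ = coeffMap (IsLocalRing.residue A) y₂ ∧
    coeffMap (IsLocalRing.residue A) y₂ ≠ 0 ∧
    coeffMap A.subtype y₁ ∈ modularFunctionFieldBar N ∧
    (u : LaurentSeries Kb) * coeffMap A.subtype y₂ = coeffMap A.subtype y₁

/-- Theorem T at level `N` for the exponent `m`. -/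
def TheoremT (A : ValuationSubring Kb) (N m : ℕ) : Prop :=
  ∀ u : FN N, IsOneUnit A N u → (∀ P : Place Kb (FN N), (m : ℤ) ∣ P.ord u) →
    ∃ (c : Kb) (w : FN N), c ≠ 0 ∧ u = algebraMap Kb (FN N) c * w ^ m

section
variable (N N' : ℕ) (hle : modularFunctionFieldBar N ≤ modularFunctionFieldBar N')

/-- `F_N → F_{N'}` for `F_N ≤ F_{N'}`. -/
@[reducible] def algFN : Algebra (FN N) (FN N') := (IntermediateField.inclusion hle).toRingHom.toAlgebra

theorem isScalarTower_algFN :
    letI := algFN N N' hle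
    IsScalarTower Kb (FN N) (FN N') := by
  let _ := algFN N N' hle
  exact IsScalarTower.of_algebraMap_eq fun a => rfl

end

end Fermat.Agent.S18.H74
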