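/-
S18 / wave 4 (helper74): definitions for the leaves of the abstract Theorem T (final).

Notation of report #1073:  `InDisc A x b P` : the place `P` lies in the residue disc `b + m_A`
of the `x`-line;  `discRing A O x b = S_b`;  the disc at infinity is `InDisc A x⁻¹ 0`.
-/
import Fermat.Agent.S18.H74.Setup

set_option autoImplicit false

open AlgebraicCurve IntermediateField

noncomputable section

namespace Fermat.Agent.S18.H74

variable {K : Type*} [Field K] (A : ValuationSubring K) {F : Type*} [Field F] [Algebra K F]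
  (O : ValuationSubring F) (x : F)

/-- `P` lies in the residue disc of `b` for the base function `x`. -/
def InDisc (b : K) (P : Place K F) : Prop :=
  ∃ c : K, c - b ∈ A.nonunits ∧ 0 < P.ord (x - algebraMap K F c)

/-- `S_b`: Gauss-integral functions without poles on the residue disc of `b`. -/
def discRing (b : K) : Set F :=
  {f | f ∈ O ∧ ∀ P : Place K F, InDisc A x b P → 0 ≤ P.ord f}

/-- An orthonormal family: `v(∑ c_i f_i) ≥ 0 ↔ ∀ i, v(c_i) ≥ 0`. -/
def IsON {ι : Type*} [Fintype ι] (f : ι → F) : Prop :=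
  ∀ c : ι → K, (∑ i, c i • f i) ∈ O ↔ ∀ i, c i ∈ A

/-- `g` is an approximate `m`-th root of `u` to the order `N`:
`g ≡ 1` and `g^m ≡ u mod (u-1)^(N+1)`. -/
def IsApproxRoot (m : ℕ) (u : F) (N : ℕ) (g : F) : Prop :=
  g - 1 ∈ O.nonunits ∧ ∃ e ∈ O, g ^ m = u + (u - 1) ^ (N + 1) * e

variable (K) in
/-- `h ∈ L(n B + j D)` where `B` is the polar divisor of `x` and `m D = div u`
(guarded by `h ≠ 0`, because `Place.ord 0 = 0`). -/
def DivCond (m : ℕ) (u : F) (n : ℕ) (j : ℕ) (h : F) : Prop :=
  h ≠ 0 → ∀ P : Place K F,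
    (m : ℤ) * min 0 ((n : ℤ) * P.ord x) ≤ (m : ℤ) * P.ord h + (j : ℤ) * P.ord u

end Fermat.Agent.S18.H74
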