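/-
S18 / wave 4 (helper74): CONDITIONAL ASSEMBLY of the route of report #1073 (sorry-free).

The statements of the leaves that were not yet proved when this file was written are Prop-valued
definitions (`ClearStatement`, `CountStatement`, `AbsTStatement`, `SetupStatement`); everything
else is imported from the landed leaves:

  `s18_of_absT`   : S18  ⟸  `SetupStatement` (bridge B7) + `ConstStatement` (T-CONST, `H73`)
                           + `AbsTStatement` (abstract Theorem T for prime exponents over `ℚ̄`)
  `absT_prime_of_clear_count` (BACKUP endgame, `H25.absT_prime_of_leaves`):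
                    abstract Theorem T  ⟸  `ClearStatement` for `x` and `x⁻¹` (leaf C1)
                           + `CountStatement` (leaf C2)
                    using the landed `H17.exists_bound`, `H22.exists_approxRoot_poly`,
                    `H22.exists_subspaces_of_transcendental`, `H38.approx_mem_disc_core`.
-/
import Fermat.Agent.S18.H74.TopDefs
import Fermat.Agent.S18.H74.CoreDefs
import Fermat.Agent.S18.H73.StepI
import Fermat.Agent.S18.H60.Descent
import Fermat.Agent.S18.H60.UnitFacts
import Fermat.Agent.S18.H17.BoundH74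
import Fermat.Agent.S18.H22.ApproxRootPoly
import Fermat.Agent.S18.H22.Subspaces
import Fermat.Agent.S18.H38.PoleBound
import Fermat.Agent.S18.H25.AbsTPrime
import Fermat.Agent.S18.H64.SetupInv

set_option autoImplicit false

open AlgebraicCurve IntermediateField ModularCurve

noncomputable section

namespace Fermat.Agent.S18.H74

section Abstract

variable (K : Type*) [Field K] (A : ValuationSubring K) (F : Type*) [Field F] [Algebra K F]
  (O : ValuationSubring F) (x : F)

/-- Statement of the leaf C1 (`exists_clear`) for the base function `x`, all residue discs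
`b + m_A`, `b ∈ A`, and the exponent `m`. -/
def ClearStatement (m : ℕ) : Prop :=
  ∀ b ∈ A, ∀ u : F, u - 1 ∈ O.nonunits →
    (∀ P : Place K F, InDisc A x b P → (m : ℤ) ∣ P.ord u) →
    ∃ g : F, g - 1 ∈ O.nonunits ∧
      ∀ P : Place K F, InDisc A x b P → (m : ℤ) * P.ord g = P.ord u

/-- Statement of the leaf C2 (`card_le_of_approx`). -/
def CountStatement : Prop :=
  ∃ c₀ : ℕ, ∀ (n d : ℕ) (f : Fin d → F), IsON A O f →
    (∀ i, ∀ b ∈ A, ∃ f' ∈ discRing A O x b, f i - f' ∈ O.nonunits) →
    (∀ i, ∃ f' : F, x⁻¹ ^ n * f' ∈ discRing A O x⁻¹ 0 ∧ f i - f' ∈ O.nonunits) →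
    d ≤ (n + c₀) * Module.finrank K⟮x⟯ F

/-- The abstract Theorem T for the prime exponent `m` in the setup `(K, A, F, O, x)`. -/
def AbsTStatement (m : ℕ) : Prop :=
  ∀ u : F, u - 1 ∈ O.nonunits → (∀ P : Place K F, (m : ℤ) ∣ P.ord u) → ∃ w : F, u = w ^ m

variable {K A F O x}

/-- **Backup endgame**: the abstract Theorem T for a prime exponent from the clearing lemma (for
`x` and for `x⁻¹`) and the special-fibre count. -/
theorem absT_prime_of_clear_count [IsAlgClosed K] [CharZero K] (hA : A ≠ ⊤)
    (harch : ∀ a c : K, a ∈ A.nonunits → c ≠ 0 → ∃ n : ℕ, a ^ n * c⁻¹ ∈ A)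
    (hS : Setup K A F O x) (m : ℕ) (hmp : m.Prime) (hm : ((m : K))⁻¹ ∈ A)
    (hclear : ClearStatement K A F O x m) (hclear' : ClearStatement K A F O x⁻¹ m)
    (hcount : CountStatement K A F O x) : AbsTStatement K F O m := by
  intro u hu hord
  have hm0 : m ≠ 0 := hmp.ne_zero
  have hu0 : u ≠ 0 := H25.ne_zero_of_sub_one_mem_nonunits hu
  have hx : Transcendental K x := H22.transcendental_of_gauss hA hS.mem_iff hS.gauss
  have : FiniteDimensional K⟮x⟯ F := hS.finite
  have hxO' : x⁻¹ ∈ O := by
    have h := hS.gauss Polynomial.X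
      (fun i => by
        rw [Polynomial.coeff_X]
        split_ifs
        · exact A.one_mem
        · exact A.zero_mem)
      ⟨1, by simp, by simp⟩
    rw [Polynomial.aeval_X] at h
    exact h.2
  refine H25.absT_prime_of_leaves hA hS m hmp u hcount ?_ ?_ ?_ ?_
  · intro N
    obtain ⟨p, -, hp⟩ := H22.exists_approxRoot_poly hS.mem_iff m hm0 hm u hu N
    exact ⟨_, hp⟩
  · intro hnot V hV
    exact H17.exists_bound hA harch hS m hmp hm u hu hnot V hV
  · intro n c₀ hc₀
    exact H38.approx_mem_disc_core hA harch hS.mem_iff hS.scale x hxO' m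
      (Nat.cast_ne_zero.mpr hm0) hm hclear (fun u hu h => hclear' 0 A.zero_mem u hu h)
      u hu hord n c₀ hc₀
  · exact H22.exists_subspaces_of_transcendental x hx m u hu0

end Abstract

/-- Statement of the bridge B7 (`exists_setup`) at level `N` for the place `A` and the exponent
`m`: a level `N'`, a Gauss valuation ring `O` of `F_{N'}` and a base function `x` forming a
`Setup`, such that `[F_{N'} : F_N]` is finite and prime to `m` and one-units of `F_N` are one-units
for `O`. -/
def SetupStatement (N : ℕ) (A : ValuationSubring Kb) (m : ℕ) : Prop :=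
  ∃ (N' : ℕ) (hle : modularFunctionFieldBar N ≤ modularFunctionFieldBar N')
    (O : ValuationSubring (FN N')) (x : FN N'),
    Setup Kb A (FN N') O x ∧
    (letI := algFN N N' hle;
      (Module.finrank (FN N) (FN N')).Coprime m ∧ Module.Finite (FN N) (FN N')) ∧
    ∀ u : FN N, IsOneUnit A N u → (IntermediateField.inclusion hle u : FN N') - 1 ∈ O.nonunits

/-- Theorem T at level `N` for the exponent `p` from the bridge and the abstract Theorem T. -/
theorem theoremT_of (N : ℕ) (A : ValuationSubring Kb) (p : ℕ)
    (hsetup : SetupStatement N A p)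
    (habs : ∀ (N' : ℕ) (O : ValuationSubring (FN N')) (x : FN N'), Setup Kb A (FN N') O x →
      AbsTStatement Kb (FN N') O p) :
    TheoremT A N p := by
  obtain ⟨N', hle, O, x, hS, hfin, hone⟩ := hsetup
  intro u hu hord
  let _ := algFN N N' hle
  have := isScalarTower_algFN N N' hle
  obtain ⟨hcop, hfd⟩ := hfin
  have : FiniteDimensional (FN N) (FN N') := hfd
  obtain ⟨hord', hdesc⟩ := H60.descent Kb (FN N) (F' := FN N') p hcop u hord
  refine hdesc ?_
  obtain ⟨w, hw⟩ := habs N' O x hS _ (hone u hu) hord'
  exact ⟨1, w, one_ne_zero, by rw [map_one, one_mul]; exact hw⟩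

/-- **S18 from the open leaves**: the bridge (`SetupStatement` for every prime `p ≠ ℓ`), the
constancy statement on the reduced function field, and the abstract Theorem T. -/
theorem s18_of_absT (N : ℕ) [NeZero N] {ℓ : ℕ} [Fact ℓ.Prime]
    (A : ValuationSubring (AlgebraicClosure ℚ))
    (h : ModularCurve.ReductionInputsModL A N)
    (hsetup : ∀ p : ℕ, p.Prime → p ≠ ℓ → SetupStatement N A p)
    (hconst : H73.ConstStatement (IsLocalRing.ResidueField A) N)
    (habs : ∀ p : ℕ, p.Prime → p ≠ ℓ → ∀ (N' : ℕ) (O : ValuationSubring (FN N')) (x : FN N'),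
      Setup Kb A (FN N') O x → AbsTStatement Kb (FN N') O p)
    (m : ℕ) (hm : ¬ ℓ ∣ m) (z : ModularCurve.JZero N)
    (hmz : m • z = 0) (hz : ModularCurve.reductionModL A N z = 0) : z = 0 :=
  H73.stepI_of N A h
    (fun p hp hpℓ => theoremT_of N A p (hsetup p hp hpℓ) (habs p hp hpℓ))
    hconst m hm z hmz hz

/-- **S18 from the open leaves, backup endgame**: bridge + constancy + clearing lemma (C1) +
special-fibre count (C2). -/
theorem s18_of_clear_count (N : ℕ) [NeZero N] {ℓ : ℕ} [Fact ℓ.Prime]
    (A : ValuationSubring (AlgebraicClosure ℚ)) (hA : A.LiesOverPrime ℓ)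
    (h : ModularCurve.ReductionInputsModL A N)
    (hsetup : ∀ p : ℕ, p.Prime → p ≠ ℓ → SetupStatement N A p)
    (hconst : H73.ConstStatement (IsLocalRing.ResidueField A) N)
    (hclear : ∀ (N' : ℕ) (O : ValuationSubring (FN N')) (x : FN N'), Setup Kb A (FN N') O x →
      ∀ m : ℕ, m ≠ 0 → ClearStatement Kb A (FN N') O x m)
    (hcount : ∀ (N' : ℕ) (O : ValuationSubring (FN N')) (x : FN N'), Setup Kb A (FN N') O x →
      CountStatement Kb A (FN N') O x)
    (m : ℕ) (hm : ¬ ℓ ∣ m) (z : ModularCurve.JZero N)
    (hmz : m • z = 0) (hz : ModularCurve.reductionModL A N z = 0) : z = 0 := by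
  refine s18_of_absT N A h hsetup hconst (fun p hp hpℓ N' O x hS => ?_) m hm z hmz hz
  have hm' : ¬ ℓ ∣ p := fun h => hpℓ ((Nat.prime_dvd_prime_iff_eq Fact.out hp).mp h).symm
  obtain ⟨hAtop, hp0, hpA, harch⟩ := H60.unit_facts A hA p hm'
  exact absT_prime_of_clear_count hAtop harch hS p hp hpA (hclear N' O x hS p hp0)
    (hclear N' O x⁻¹ (H64.setup_inv hS) p hp0) (hcount N' O x hS)

end Fermat.Agent.S18.H74
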