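/-
S18 / wave 4 (helper74): CONDITIONAL ASSEMBLY, second version (sorry-free): the same as
`Assembly.lean`, with `H13.stepI` (no constancy statement on the reduced function field).

  `s18_of_setup_absT`        : S18 ⟸ `SetupStatement` (bridge B7) + `AbsTStatement`
  `s18_of_setup_clear_count` : S18 ⟸ `SetupStatement` + `ClearStatement` (C1) + `CountStatement` (C2)
-/
import Fermat.Agent.S18.H74.Assembly
import Fermat.Agent.S18.H13.Red

set_option autoImplicit false

open AlgebraicCurve IntermediateField ModularCurve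

noncomputable section

namespace Fermat.Agent.S18.H74

/-- S18 for a PRIME exponent `p ≠ ℓ` from the bridge and the abstract Theorem T. -/
theorem s18_prime_of_setup_absT (N : ℕ) [NeZero N]
    (A : ValuationSubring (AlgebraicClosure ℚ))
    (h : ModularCurve.ReductionInputsModL A N) (p : ℕ) (hp : p ≠ 0)
    (hsetup : SetupStatement N A p)
    (habs : ∀ (N' : ℕ) (O : ValuationSubring (FN N')) (x : FN N'),
      Setup Kb A (FN N') O x → AbsTStatement Kb (FN N') O p)
    (z : ModularCurve.JZero N)
    (hmz : p • z = 0) (hz : ModularCurve.reductionModL A N z = 0) : z = 0 :=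
  H13.stepI N A h p hp (theoremT_of N A p hsetup habs) z hmz hz

/-- **S18 from the open leaves**: the bridge (`SetupStatement` for every prime `p ≠ ℓ`) and the
abstract Theorem T for prime exponents. -/
theorem s18_of_setup_absT (N : ℕ) [NeZero N] {ℓ : ℕ}
    (A : ValuationSubring (AlgebraicClosure ℚ))
    (h : ModularCurve.ReductionInputsModL A N)
    (hsetup : ∀ p : ℕ, p.Prime → p ≠ ℓ → SetupStatement N A p)
    (habs : ∀ p : ℕ, p.Prime → p ≠ ℓ → ∀ (N' : ℕ) (O : ValuationSubring (FN N')) (x : FN N'),
      Setup Kb A (FN N') O x → AbsTStatement Kb (FN N') O p)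
    (m : ℕ) (hm : ¬ ℓ ∣ m) (z : ModularCurve.JZero N)
    (hmz : m • z = 0) (hz : ModularCurve.reductionModL A N z = 0) : z = 0 := by
  induction m using Nat.strong_induction_on generalizing z with
  | _ m ih =>
    rcases Nat.lt_or_ge m 2 with hlt | hge
    · interval_cases m
      · exact absurd (dvd_zero ℓ) hm
      · simpa using hmz
    · have hp : (m.minFac).Prime := Nat.minFac_prime (by omega)
      obtain ⟨m', hm'⟩ := Nat.minFac_dvd m
      have hpℓ : m.minFac ≠ ℓ := fun h0 => hm (h0 ▸ Nat.minFac_dvd m)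
      have hm'0 : m' ≠ 0 := by
        rintro rfl
        omega
      have hlt : m' < m := by
        have h2 := hp.two_le
        calc m' < m.minFac * m' := by nlinarith [Nat.pos_of_ne_zero hm'0]
          _ = m := hm'.symm
      have hz' : m' • z = 0 := by
        refine s18_prime_of_setup_absT N A h m.minFac hp.ne_zero (hsetup _ hp hpℓ)
          (habs _ hp hpℓ) (m' • z) ?_ ?_
        · rw [← mul_smul, ← hm']
          exact hmz
        · rw [map_nsmul, hz, smul_zero]
      exact ih m' hlt (fun hd => hm (hm' ▸ Dvd.dvd.mul_left hd _)) z hz' hz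

/-- **S18 from the open leaves, backup endgame**: bridge + clearing lemma (C1) + special-fibre
count (C2). -/
theorem s18_of_setup_clear_count (N : ℕ) [NeZero N] {ℓ : ℕ} [Fact ℓ.Prime]
    (A : ValuationSubring (AlgebraicClosure ℚ)) (hA : A.LiesOverPrime ℓ)
    (h : ModularCurve.ReductionInputsModL A N)
    (hsetup : ∀ p : ℕ, p.Prime → p ≠ ℓ → SetupStatement N A p)
    (hclear : ∀ (N' : ℕ) (O : ValuationSubring (FN N')) (x : FN N'), Setup Kb A (FN N') O x →
      ∀ m : ℕ, m ≠ 0 → ClearStatement Kb A (FN N') O x m)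
    (hcount : ∀ (N' : ℕ) (O : ValuationSubring (FN N')) (x : FN N'), Setup Kb A (FN N') O x →
      CountStatement Kb A (FN N') O x)
    (m : ℕ) (hm : ¬ ℓ ∣ m) (z : ModularCurve.JZero N)
    (hmz : m • z = 0) (hz : ModularCurve.reductionModL A N z = 0) : z = 0 := by
  refine s18_of_setup_absT N A h hsetup (fun p hp hpℓ N' O x hS => ?_) m hm z hmz hz
  have hm' : ¬ ℓ ∣ p := fun h => hpℓ ((Nat.prime_dvd_prime_iff_eq Fact.out hp).mp h).symm
  obtain ⟨hAtop, hp0, hpA, harch⟩ := H60.unit_facts A hA p hm'
  exact absT_prime_of_clear_count hAtop harch hS p hp hpA (hclear N' O x hS p hp0)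
    (hclear N' O x⁻¹ (H64.setup_inv hS) p hp0) (hcount N' O x hS)

end Fermat.Agent.S18.H74
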