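/-
S18 / wave 4 (helper74): leaf C1 = the clearing lemma `exists_clear` (Key Lemma + tubes),
UNCONDITIONAL, assembled from the landed C1 nodes:
`H49.exists_clear_of_three` (assembly, helper49), `H5.key_ic` + `H5.key_closed` (Key Lemma,
helper5), `H69.key_gen_of_closed` (generators, helper69), `H20.clear_of_hyps` (clearing, helper20),
`H49.ev_disc`, `H49.mo_disc`.
-/
import Fermat.Agent.S18.H49.C1Tube
import Fermat.Agent.S18.H5.Key
import Fermat.Agent.S18.H69.KeyGen
import Fermat.Agent.S18.H20.Clear
import Fermat.Agent.S18.H74.Assembly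

set_option autoImplicit false

open AlgebraicCurve IntermediateField

noncomputable section

namespace Fermat.Agent.S18.H74

variable {K : Type*} [Field K] {A : ValuationSubring K} {F : Type*} [Field F] [Algebra K F]
  {O : ValuationSubring F} {x : F}

/-- **(L1) Clearing lemma = Key Lemma (II) + tubes.**
A one-unit whose divisor is divisible by `m` on a residue disc can be written there as the
divisor of `g^m` for a ONE-UNIT `g`. -/
theorem exists_clear_final [IsAlgClosed K] [CharZero K] (hA : A ≠ ⊤) (hS : Setup K A F O x)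
    (b : K) (hb : b ∈ A) (m : ℕ) (hm : m ≠ 0) (u : F) (hu : u - 1 ∈ O.nonunits)
    (hord : ∀ P : Place K F, InDisc A x b P → (m : ℤ) ∣ P.ord u) :
    ∃ g : F, g - 1 ∈ O.nonunits ∧
      ∀ P : Place K F, InDisc A x b P → (m : ℤ) * P.ord g = P.ord u :=
  Fermat.Agent.S18.H49.exists_clear_of_three hA hS
    (fun b hb hkey m hm y hy w hw hyw =>
      Fermat.Agent.S18.H5.key_ic hA hS b hb hkey m hm y hy w hw hyw)
    (fun b hb hkey P hP =>
      Fermat.Agent.S18.H69.key_gen_of_closed hA hS b hb hkey
        (Fermat.Agent.S18.H5.key_closed hA hS hb hkey)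
        (fun s hs P hP c hc => Fermat.Agent.S18.H49.ev_disc hA hS b hb s hs P hP c hc)
        (fun e he heO => Fermat.Agent.S18.H49.mo_disc hS b e he heO) P hP)
    (fun b m hm u hu hord FIN TUBE IC EV MO =>
      Fermat.Agent.S18.H20.clear_of_hyps b m hm u hu hord FIN TUBE IC EV MO)
    b hb m hm u hu hord

/-- The clearing lemma in the shape of `ClearStatement`. -/
theorem clearStatement [IsAlgClosed K] [CharZero K] (hA : A ≠ ⊤) (hS : Setup K A F O x)
    (m : ℕ) (hm : m ≠ 0) : ClearStatement K A F O x m :=
  fun b hb u hu hord => exists_clear_final hA hS b hb m hm u hu hord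

end Fermat.Agent.S18.H74
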