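/-
S18 / wave 4 (helper74): EXPORTS of Program J for later programs (S37, ...), sorry-free.

* `absT_of_setup_general`: the abstract Theorem T in ANY setup `(K, A, F, O, x)`, for every
  exponent `m ≠ 0` which is a unit of `A` (`A ≠ ⊤` of rank one, `K` algebraically closed of
  characteristic `0`): a one-unit all of whose orders are divisible by `m` is an `m`-th power.
* `absT_of_setup`: the same over `ℚ̄` for a place `A` above `ℓ` and `ℓ ∤ m`, at ANY level `N'` and
  for ANY Gauss ring `O` and base function `x` forming a `Setup` (in particular for the explicit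
  objects of the bridge).
-/
import Fermat.Agent.S18.H74.Clear
import Fermat.Agent.S18.H29.Final
import Fermat.Agent.S18.H60.UnitFacts
import Fermat.Agent.S18.H64.SetupInv

set_option autoImplicit false

open AlgebraicCurve IntermediateField ModularCurve

noncomputable section

namespace Fermat.Agent.S18.H74

/-- **Abstract Theorem T** in any setup, for every exponent which is a unit of `A`. -/
theorem absT_of_setup_general {K : Type*} [Field K] {A : ValuationSubring K} {F : Type*} [Field F]
    [Algebra K F] {O : ValuationSubring F} {x : F} [IsAlgClosed K] [CharZero K] (hA : A ≠ ⊤)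
    (harch : ∀ a c : K, a ∈ A.nonunits → c ≠ 0 → ∃ n : ℕ, a ^ n * c⁻¹ ∈ A)
    (hS : Setup K A F O x) (m : ℕ) (hm0 : m ≠ 0) (hm : ((m : K))⁻¹ ∈ A) :
    AbsTStatement K F O m :=
  Fermat.Agent.S18.H29.absT_of_clear hA harch hS m hm0 hm (clearStatement hA hS m hm0)
    (clearStatement hA (Fermat.Agent.S18.H64.setup_inv hS) m hm0)

/-- **Theorem T over `ℚ̄`** for a place `A` above `ℓ` and an exponent `m` prime to `ℓ`, in any
setup on `F_{N'}`: a one-unit `u` (`u - 1 ∈ m_O`) with `m ∣ ord_P u` for all places `P` is an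
`m`-th power in `F_{N'}`. -/
theorem absT_of_setup {ℓ : ℕ} [Fact ℓ.Prime] (A : ValuationSubring Kb) (hA : A.LiesOverPrime ℓ)
    {N' : ℕ} {O : ValuationSubring (FN N')} {x : FN N'} (hS : Setup Kb A (FN N') O x)
    (m : ℕ) (hm : ¬ ℓ ∣ m) (u : FN N') (hu : u - 1 ∈ O.nonunits)
    (hord : ∀ P : Place Kb (FN N'), (m : ℤ) ∣ P.ord u) : ∃ w : FN N', u = w ^ m := by
  obtain ⟨hAtop, hm0, hmA, harch⟩ := Fermat.Agent.S18.H60.unit_facts A hA m hm
  exact absT_of_setup_general hAtop harch hS m hm0 hmA u hu hord

end Fermat.Agent.S18.H74
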